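/-
S20 package G3 (helper85): a frame `F` with a dual frame `Ψ` of cusp forms
(`∑_c (Ψ x)_c (F y)_c = δ_xy Δ`) decomposes modular forms and cusp forms on `Γ₀(N)` uniquely
over the level-one forms; dimension formulas and weight range.
-/
import Fermat.Agent.S20.Basic
import Fermat.Agent.S20.LevelOne
set_option autoImplicit false

open UpperHalfPlane ModularForm CongruenceSubgroup Matrix.SpecialLinearGroup Filter
open scoped MatrixGroups ModularForm Manifold Topology

noncomputable section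

namespace Fermat.Agent.S20.H85

variable {N : ℕ} [NeZero N] {a : X N → ℤ}

/-- The matrix of coset translates of a family of cusp forms. -/
def dualMatrix {b : X N → ℤ} (Ψ : ∀ x, CuspForm (Γ0 N) (b x)) (τ : ℍ) :
    Matrix (X N) (X N) ℂ := Matrix.of fun x c => cosetFun (Ψ x) c τ

/-- `Ψ` is a dual frame of `F`: `∑_c (Ψ x)_c (F y)_c = δ_xy Δ`. -/
def IsDualFrame (F : ∀ x, ModularForm (Γ0 N) (a x)) (Ψ : ∀ x, CuspForm (Γ0 N) (12 - a x)) : Prop :=
  ∀ (τ : ℍ) (x y : X N),
    ∑ c : X N, cosetFun (Ψ x) c τ * cosetFun (F y) c τ = if x = y then discriminant τ else 0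

section
variable {F : ∀ x, ModularForm (Γ0 N) (a x)} {Ψ : ∀ x, CuspForm (Γ0 N) (12 - a x)}

lemma IsDualFrame.dualMatrix_mul (h : IsDualFrame F Ψ) (τ : ℍ) :
    dualMatrix Ψ τ * frameMatrix F τ = discriminant τ • (1 : Matrix (X N) (X N) ℂ) := by
  ext x y
  simp only [dualMatrix, frameMatrix, Matrix.mul_apply, Matrix.of_apply, Matrix.smul_apply,
    Matrix.one_apply, smul_eq_mul, mul_ite, mul_one, mul_zero]
  exact h τ x y

lemma IsDualFrame.frameMatrix_mul (h : IsDualFrame F Ψ) (τ : ℍ) :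
    frameMatrix F τ * dualMatrix Ψ τ = discriminant τ • (1 : Matrix (X N) (X N) ℂ) := by
  have hΔ : discriminant τ ≠ 0 := discriminant_ne_zero τ
  have h1 : ((discriminant τ)⁻¹ • dualMatrix Ψ τ) * frameMatrix F τ = 1 := by
    rw [Matrix.smul_mul, h.dualMatrix_mul τ, smul_smul, inv_mul_cancel₀ hΔ, one_smul]
  have h2 := mul_eq_one_comm.mp h1
  rw [Matrix.mul_smul] at h2
  calc frameMatrix F τ * dualMatrix Ψ τ
      = discriminant τ • ((discriminant τ)⁻¹ • (frameMatrix F τ * dualMatrix Ψ τ)) := by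
        rw [smul_smul, mul_inv_cancel₀ hΔ, one_smul]
    _ = _ := by rw [h2]

/-- The transposed duality relation `∑_x (F x)_c (Ψ x)_c' = δ_cc' Δ`. -/
lemma IsDualFrame.sum_frame (h : IsDualFrame F Ψ) (τ : ℍ) (c c' : X N) :
    ∑ x : X N, cosetFun (F x) c τ * cosetFun (Ψ x) c' τ = if c = c' then discriminant τ else 0 := by
  have := congrFun (congrFun (h.frameMatrix_mul τ) c) c'
  simpa only [dualMatrix, frameMatrix, Matrix.mul_apply, Matrix.of_apply, Matrix.smul_apply,
    Matrix.one_apply, smul_eq_mul, mul_ite, mul_one, mul_zero] using this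

lemma IsDualFrame.isUnit_frameMatrix (h : IsDualFrame F Ψ) (τ : ℍ) :
    IsUnit (frameMatrix F τ) := by
  have hΔ : discriminant τ ≠ 0 := discriminant_ne_zero τ
  refine IsUnit.of_mul_eq_one ((discriminant τ)⁻¹ • dualMatrix Ψ τ) ?_
  rw [Matrix.mul_smul, h.frameMatrix_mul τ, smul_smul, inv_mul_cancel₀ hΔ, one_smul]

lemma IsDualFrame.isUnit_dualMatrix (h : IsDualFrame F Ψ) (τ : ℍ) :
    IsUnit (dualMatrix Ψ τ) := by
  have hΔ : discriminant τ ≠ 0 := discriminant_ne_zero τ
  refine IsUnit.of_mul_eq_one ((discriminant τ)⁻¹ • frameMatrix F τ) ?_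
  rw [Matrix.mul_smul, h.dualMatrix_mul τ, smul_smul, inv_mul_cancel₀ hΔ, one_smul]

end

/-- Level-one forms are invariant under the slash action of `SL(2, ℤ)`. -/
lemma levelOne_slash {m : ℤ} (r : ModularForm 𝒮ℒ m) (g : SL(2, ℤ)) : (r : ℍ → ℂ) ∣[m] g = r := by
  have := SlashInvariantFormClass.slash_action_eq r (mapGL ℝ g) ⟨g, rfl⟩
  simpa [SL_slash, mapGL] using this

/-- Slash of (level-one form) × (function), with a weight cast. -/
lemma slash_levelOne_mul {m l k : ℤ} (h : m + l = k) (r : ModularForm 𝒮ℒ m) (u : ℍ → ℂ)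
    (g : SL(2, ℤ)) : ((r : ℍ → ℂ) * u) ∣[k] g = (r : ℍ → ℂ) * (u ∣[l] g) := by
  subst h
  rw [mul_slash_SL2, levelOne_slash]

/-- The pairing function of two families of coset translates. -/
def pairFun {F F' : Type*} [FunLike F ℍ ℂ] [FunLike F' ℍ ℂ] {k l : ℤ}
    [SlashInvariantFormClass F (Γ0 N) k] [SlashInvariantFormClass F' (Γ0 N) l] (f : F) (g : F') :
    ℍ → ℂ := fun τ => ∑ c : X N, cosetFun f c τ * cosetFun g c τ

lemma pairFun_eq_sum {F F' : Type*} [FunLike F ℍ ℂ] [FunLike F' ℍ ℂ] {k l : ℤ}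
    [SlashInvariantFormClass F (Γ0 N) k] [SlashInvariantFormClass F' (Γ0 N) l] (f : F) (g : F') :
    pairFun f g = ∑ c : X N, cosetFun f c * cosetFun g c := by
  funext τ
  simp [pairFun, Finset.sum_apply]

lemma mdifferentiable_pairFun {F F' : Type*} [FunLike F ℍ ℂ] [FunLike F' ℍ ℂ] {k l : ℤ}
    [ModularFormClass F (Γ0 N) k] [ModularFormClass F' (Γ0 N) l] (f : F) (g : F') :
    MDiff (pairFun f g) := by
  rw [pairFun_eq_sum]
  exact MDifferentiable.sum fun c _ =>
    (mdifferentiable_cosetFun f c).mul (mdifferentiable_cosetFun g c)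

lemma pairFun_slash {F F' : Type*} [FunLike F ℍ ℂ] [FunLike F' ℍ ℂ] {k l : ℤ}
    [SlashInvariantFormClass F (Γ0 N) k] [SlashInvariantFormClass F' (Γ0 N) l] (f : F) (g : F')
    (γ : SL(2, ℤ)) : pairFun f g ∣[k + l] γ = pairFun f g :=
  pairing_slash f g γ

lemma isZeroAtImInfty_pairFun_left {F F' : Type*} [FunLike F ℍ ℂ] [FunLike F' ℍ ℂ] {k l : ℤ}
    [CuspFormClass F (Γ0 N) k] [ModularFormClass F' (Γ0 N) l] (f : F) (g : F') :
    IsZeroAtImInfty (pairFun f g) := by
  rw [pairFun_eq_sum, IsZeroAtImInfty, ZeroAtFilter]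
  rw [show (0 : ℂ) = ∑ c : X N, 0 by simp]
  have : (∑ c : X N, cosetFun f c * cosetFun g c) =
      fun τ => ∑ c : X N, (cosetFun f c * cosetFun g c) τ := by
    funext τ; simp [Finset.sum_apply]
  rw [this]
  refine tendsto_finsetSum _ fun c _ => ?_
  exact (isZeroAtImInfty_cosetFun_of_cusp f c).mul_boundedAtFilter (isBoundedAtImInfty_cosetFun g c)

lemma isZeroAtImInfty_pairFun_right {F F' : Type*} [FunLike F ℍ ℂ] [FunLike F' ℍ ℂ] {k l : ℤ}
    [ModularFormClass F (Γ0 N) k] [CuspFormClass F' (Γ0 N) l] (f : F) (g : F') :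
    IsZeroAtImInfty (pairFun f g) := by
  have : pairFun f g = pairFun g f := by
    funext τ; simp only [pairFun]; exact Finset.sum_congr rfl fun c _ => mul_comm _ _
  rw [this]
  exact isZeroAtImInfty_pairFun_left g f

/-- The pairing of a modular form with a cusp form is `Δ` times a level-one form. -/
lemma exists_levelOne_pairFun_right {F F' : Type*} [FunLike F ℍ ℂ] [FunLike F' ℍ ℂ] {k l : ℤ}
    [ModularFormClass F (Γ0 N) k] [CuspFormClass F' (Γ0 N) l] (f : F) (g : F') :
    ∃ r : ModularForm 𝒮ℒ (k + l - 12), ∀ τ, pairFun f g τ = discriminant τ * r τ :=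
  levelOne_cusp_of_invariant (mdifferentiable_pairFun f g) (pairFun_slash f g)
    (isZeroAtImInfty_pairFun_right f g)

lemma exists_levelOne_pairFun_left {F F' : Type*} [FunLike F ℍ ℂ] [FunLike F' ℍ ℂ] {k l : ℤ}
    [CuspFormClass F (Γ0 N) k] [ModularFormClass F' (Γ0 N) l] (f : F) (g : F') :
    ∃ r : ModularForm 𝒮ℒ (k + l - 12), ∀ τ, pairFun f g τ = discriminant τ * r τ :=
  levelOne_cusp_of_invariant (mdifferentiable_pairFun f g) (pairFun_slash f g)
    (isZeroAtImInfty_pairFun_left f g)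

section Decomp
variable {F : ∀ x, ModularForm (Γ0 N) (a x)} {Ψ : ∀ x, CuspForm (Γ0 N) (12 - a x)}

/-- Reconstruction of a vector from its pairings with the dual frame. -/
lemma IsDualFrame.sum_pair_dual_mul (h : IsDualFrame F Ψ) {k : ℤ} (f : ModularForm (Γ0 N) k)
    (τ : ℍ) : ∑ x, pairFun f (Ψ x) τ * F x τ = discriminant τ * f τ := by
  simp only [pairFun, Finset.sum_mul]
  rw [Finset.sum_comm]
  have : ∀ c : X N, ∑ x, cosetFun f c τ * cosetFun (Ψ x) c τ * F x τ
      = cosetFun f c τ * (if (QuotientGroup.mk 1 : X N) = c then discriminant τ else 0) := by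
    intro c
    rw [← h.sum_frame τ (QuotientGroup.mk 1) c, Finset.mul_sum]
    refine Finset.sum_congr rfl fun x _ => ?_
    rw [cosetFun_one]; ring
  simp_rw [this]
  rw [Finset.sum_eq_single (QuotientGroup.mk 1 : X N)]
  · rw [if_pos rfl, cosetFun_one, mul_comm]
  · intro c _ hc
    rw [if_neg (Ne.symm hc), mul_zero]
  · intro hc; exact absurd (Finset.mem_univ _) hc

/-- Existence of the decomposition of a modular form along the frame. -/
theorem IsDualFrame.exists_decomp (h : IsDualFrame F Ψ) {k : ℤ} (f : ModularForm (Γ0 N) k) :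
    ∃ r : ∀ x, ModularForm 𝒮ℒ (k - a x), ∀ τ, f τ = ∑ x, r x τ * F x τ := by
  choose r' hr' using fun x => exists_levelOne_pairFun_right f (Ψ x)
  refine ⟨fun x => ModularForm.mcast (by ring) (r' x), fun τ => ?_⟩
  have hΔ := discriminant_ne_zero τ
  apply mul_left_cancel₀ hΔ
  rw [← h.sum_pair_dual_mul f τ, Finset.mul_sum]
  refine Finset.sum_congr rfl fun x _ => ?_
  rw [hr' x τ, ModularForm.mcast_apply, mul_assoc]


/-- If a combination of functions with level-one coefficients vanishes identically, so does the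
combination of their slashes. -/
lemma sum_levelOne_mul_slash_eq_zero {ι : Type*} [Fintype ι] {b m : ι → ℤ} {k : ℤ}
    (hm : ∀ x, m x + b x = k) (u : ι → ℍ → ℂ)
    (d : ∀ x, ModularForm 𝒮ℒ (m x)) (hd : ∀ τ, ∑ x, d x τ * u x τ = 0)
    (g : SL(2, ℤ)) (τ : ℍ) : ∑ x, d x τ * (u x ∣[b x] g) τ = 0 := by
  have h0 : (∑ x, (d x : ℍ → ℂ) * u x) = 0 := by
    funext τ
    simpa [Finset.sum_apply] using hd τ
  have h1 : (∑ x, (d x : ℍ → ℂ) * u x) ∣[k] g = 0 := by
    rw [h0, SlashAction.zero_slash]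
  rw [SlashAction.sum_slash] at h1
  have h2 : ∀ x, ((d x : ℍ → ℂ) * u x) ∣[k] g = (d x : ℍ → ℂ) * (u x ∣[b x] g) := fun x =>
    slash_levelOne_mul (hm x) (d x) (u x) g
  simp_rw [h2] at h1
  simpa [Finset.sum_apply] using congrFun h1 τ

/-- If a combination of the frame with level-one coefficients vanishes, the coefficients vanish. -/
theorem IsDualFrame.eq_zero_of_sum_eq_zero (h : IsDualFrame F Ψ) {k : ℤ}
    (d : ∀ x, ModularForm 𝒮ℒ (k - a x)) (hd : ∀ τ, ∑ x, d x τ * F x τ = 0) (y : X N) :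
    d y = 0 := by
  ext τ
  have hA : ∀ c : X N, ∑ x, d x τ * cosetFun (F x) c τ = 0 := by
    intro c
    induction c using QuotientGroup.induction_on with
    | H g =>
      simp only [cosetFun_mk]
      exact sum_levelOne_mul_slash_eq_zero (fun x => by ring) (fun x => (F x : ℍ → ℂ)) d hd g⁻¹ τ
  have hB : discriminant τ * d y τ = 0 := by
    calc discriminant τ * d y τ
        = ∑ x, d x τ * (if y = x then discriminant τ else 0) := by
          rw [Finset.sum_eq_single y]
          · rw [if_pos rfl, mul_comm]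
          · intro x _ hx; rw [if_neg (Ne.symm hx), mul_zero]
          · intro hy; exact absurd (Finset.mem_univ _) hy
      _ = ∑ x, d x τ * ∑ c, cosetFun (Ψ y) c τ * cosetFun (F x) c τ := by
          refine Finset.sum_congr rfl fun x _ => ?_
          rw [h τ y x]
      _ = ∑ c, cosetFun (Ψ y) c τ * ∑ x, d x τ * cosetFun (F x) c τ := by
          simp only [Finset.mul_sum]
          rw [Finset.sum_comm]
          refine Finset.sum_congr rfl fun c _ => Finset.sum_congr rfl fun x _ => ?_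
          ring
      _ = 0 := by simp [hA]
  simpa [discriminant_ne_zero τ] using hB


/-- Reconstruction of a vector from its pairings with the frame. -/
lemma IsDualFrame.sum_pair_frame_mul (h : IsDualFrame F Ψ) {k : ℤ} (f : CuspForm (Γ0 N) k)
    (τ : ℍ) : ∑ x, pairFun f (F x) τ * Ψ x τ = discriminant τ * f τ := by
  simp only [pairFun, Finset.sum_mul]
  rw [Finset.sum_comm]
  have : ∀ c : X N, ∑ x, cosetFun f c τ * cosetFun (F x) c τ * Ψ x τ
      = cosetFun f c τ * (if c = (QuotientGroup.mk 1 : X N) then discriminant τ else 0) := by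
    intro c
    rw [← h.sum_frame τ c (QuotientGroup.mk 1), Finset.mul_sum]
    refine Finset.sum_congr rfl fun x _ => ?_
    rw [cosetFun_one]; ring
  simp_rw [this]
  rw [Finset.sum_eq_single (QuotientGroup.mk 1 : X N)]
  · rw [if_pos rfl, cosetFun_one, mul_comm]
  · intro c _ hc
    rw [if_neg hc, mul_zero]
  · intro hc; exact absurd (Finset.mem_univ _) hc

/-- Existence of the decomposition of a cusp form along the dual frame. -/
theorem IsDualFrame.exists_decomp_cusp (h : IsDualFrame F Ψ) {k : ℤ} (f : CuspForm (Γ0 N) k) :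
    ∃ s : ∀ x, ModularForm 𝒮ℒ (k + a x - 12), ∀ τ, f τ = ∑ x, s x τ * Ψ x τ := by
  choose s hs using fun x => exists_levelOne_pairFun_left f (F x)
  refine ⟨s, fun τ => ?_⟩
  have hΔ := discriminant_ne_zero τ
  apply mul_left_cancel₀ hΔ
  rw [← h.sum_pair_frame_mul f τ, Finset.mul_sum]
  refine Finset.sum_congr rfl fun x _ => ?_
  rw [hs x τ, mul_assoc]

/-- If a combination of the dual frame with level-one coefficients vanishes, the coefficients
vanish. -/
theorem IsDualFrame.eq_zero_of_sum_dual_eq_zero (h : IsDualFrame F Ψ) {k : ℤ}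
    (d : ∀ x, ModularForm 𝒮ℒ (k + a x - 12)) (hd : ∀ τ, ∑ x, d x τ * Ψ x τ = 0) (y : X N) :
    d y = 0 := by
  ext τ
  have hA : ∀ c : X N, ∑ x, d x τ * cosetFun (Ψ x) c τ = 0 := by
    intro c
    induction c using QuotientGroup.induction_on with
    | H g =>
      simp only [cosetFun_mk]
      exact sum_levelOne_mul_slash_eq_zero (fun x => by ring) (fun x => (Ψ x : ℍ → ℂ)) d hd g⁻¹ τ
  have hB : discriminant τ * d y τ = 0 := by
    calc discriminant τ * d y τ
        = ∑ x, d x τ * (if x = y then discriminant τ else 0) := by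
          rw [Finset.sum_eq_single y]
          · rw [if_pos rfl, mul_comm]
          · intro x _ hx; rw [if_neg hx, mul_zero]
          · intro hy; exact absurd (Finset.mem_univ _) hy
      _ = ∑ x, d x τ * ∑ c, cosetFun (Ψ x) c τ * cosetFun (F y) c τ := by
          refine Finset.sum_congr rfl fun x _ => ?_
          rw [h τ x y]
      _ = ∑ c, cosetFun (F y) c τ * ∑ x, d x τ * cosetFun (Ψ x) c τ := by
          simp only [Finset.mul_sum]
          rw [Finset.sum_comm]
          refine Finset.sum_congr rfl fun c _ => Finset.sum_congr rfl fun x _ => ?_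
          ring
      _ = 0 := by simp [hA]
  simpa [discriminant_ne_zero τ] using hB

end Decomp


section LinearEquivs

lemma modularForm_sum_apply {Γ : Subgroup (GL (Fin 2) ℝ)} {k : ℤ} {ι : Type*} (s : Finset ι)
    (f : ι → ModularForm Γ k) (τ : ℍ) : (∑ i ∈ s, f i) τ = ∑ i ∈ s, f i τ := by
  classical
  induction s using Finset.induction_on with
  | empty => simp
  | insert i s his h => simp [Finset.sum_insert his, h]

lemma cuspForm_sum_apply {Γ : Subgroup (GL (Fin 2) ℝ)} {k : ℤ} {ι : Type*} (s : Finset ι)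
    (f : ι → CuspForm Γ k) (τ : ℍ) : (∑ i ∈ s, f i) τ = ∑ i ∈ s, f i τ := by
  classical
  induction s using Finset.induction_on with
  | empty => simp
  | insert i s his h => simp [Finset.sum_insert his, h]

/-- A combination of modular forms on `Γ₀(N)` with level-one coefficients is a modular form. -/
lemma exists_sum_levelOne_mul {b m : X N → ℤ} {k : ℤ} (hm : ∀ x, m x + b x = k)
    (G : ∀ x, ModularForm (Γ0 N) (b x)) (r : ∀ x, ModularForm 𝒮ℒ (m x)) :
    ∃ h : ModularForm (Γ0 N) k, ∀ τ, h τ = ∑ x, r x τ * G x τ := by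
  refine ⟨∑ x, ModularForm.mcast (hm x) ((resLO N (r x)).mul (G x)), fun τ => ?_⟩
  rw [modularForm_sum_apply]
  refine Finset.sum_congr rfl fun x _ => ?_
  rw [ModularForm.mcast_apply, ModularForm.coe_mul, Pi.mul_apply, resLO_apply]

/-- A combination of cusp forms on `Γ₀(N)` with level-one coefficients is a cusp form. -/
lemma exists_sum_levelOne_mul_cusp {b m : X N → ℤ} {k : ℤ} (hm : ∀ x, m x + b x = k)
    (G : ∀ x, CuspForm (Γ0 N) (b x)) (r : ∀ x, ModularForm 𝒮ℒ (m x)) :
    ∃ h : CuspForm (Γ0 N) k, ∀ τ, h τ = ∑ x, r x τ * G x τ := by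
  refine ⟨∑ x, CuspForm.mcast (by rw [add_comm]; exact hm x)
    ((G x).mulModularForm (resLO N (r x))), fun τ => ?_⟩
  rw [cuspForm_sum_apply]
  refine Finset.sum_congr rfl fun x _ => ?_
  show ((G x).mulModularForm (resLO N (r x)) : ℍ → ℂ) τ = _
  rw [CuspForm.coe_mulModularForm, Pi.mul_apply, resLO_apply, mul_comm]

variable (F : ∀ x, ModularForm (Γ0 N) (a x)) (Ψ : ∀ x, CuspForm (Γ0 N) (12 - a x))

/-- The synthesis map `r ↦ ∑ₓ rₓ Fₓ` as a function. -/
def synthFun (k : ℤ) (r : ∀ x, ModularForm 𝒮ℒ (k - a x)) : ModularForm (Γ0 N) k :=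
  Classical.choose (exists_sum_levelOne_mul (fun x => by ring) F r)

lemma synthFun_apply (k : ℤ) (r : ∀ x, ModularForm 𝒮ℒ (k - a x)) (τ : ℍ) :
    synthFun F k r τ = ∑ x, r x τ * F x τ :=
  Classical.choose_spec (exists_sum_levelOne_mul (fun x => by ring) F r) τ

/-- The synthesis map `r ↦ ∑ₓ rₓ Fₓ`, as a linear map. -/
def synth (k : ℤ) : (∀ x, ModularForm 𝒮ℒ (k - a x)) →ₗ[ℂ] ModularForm (Γ0 N) k where
  toFun := synthFun F k
  map_add' r r' := by
    ext τ
    simp only [add_apply, synthFun_apply, Pi.add_apply, add_mul, Finset.sum_add_distrib]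
  map_smul' z r := by
    ext τ
    simp only [smul_apply, synthFun_apply, Pi.smul_apply, RingHom.id_apply, smul_eq_mul,
      Finset.mul_sum, mul_assoc]

lemma synth_apply (k : ℤ) (r : ∀ x, ModularForm 𝒮ℒ (k - a x)) (τ : ℍ) :
    synth F k r τ = ∑ x, r x τ * F x τ := synthFun_apply F k r τ

/-- The synthesis map `s ↦ ∑ₓ sₓ Ψₓ` for the dual frame, as a function. -/
def synthCuspFun (k : ℤ) (s : ∀ x, ModularForm 𝒮ℒ (k + a x - 12)) : CuspForm (Γ0 N) k :=
  Classical.choose (exists_sum_levelOne_mul_cusp (fun x => by ring) Ψ s)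

lemma synthCuspFun_apply (k : ℤ) (s : ∀ x, ModularForm 𝒮ℒ (k + a x - 12)) (τ : ℍ) :
    synthCuspFun Ψ k s τ = ∑ x, s x τ * Ψ x τ :=
  Classical.choose_spec (exists_sum_levelOne_mul_cusp (fun x => by ring) Ψ s) τ

/-- The synthesis map `s ↦ ∑ₓ sₓ Ψₓ` for the dual frame, as a linear map. -/
def synthCusp (k : ℤ) : (∀ x, ModularForm 𝒮ℒ (k + a x - 12)) →ₗ[ℂ] CuspForm (Γ0 N) k where
  toFun := synthCuspFun Ψ k
  map_add' s s' := by
    ext τ
    simp only [add_apply, synthCuspFun_apply, Pi.add_apply, add_mul, Finset.sum_add_distrib]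
  map_smul' z s := by
    ext τ
    simp only [smul_apply, synthCuspFun_apply, Pi.smul_apply, RingHom.id_apply, smul_eq_mul,
      Finset.mul_sum, mul_assoc]

lemma synthCusp_apply (k : ℤ) (s : ∀ x, ModularForm 𝒮ℒ (k + a x - 12)) (τ : ℍ) :
    synthCusp Ψ k s τ = ∑ x, s x τ * Ψ x τ := synthCuspFun_apply Ψ k s τ

variable {F Ψ}

lemma IsDualFrame.synth_bijective (h : IsDualFrame F Ψ) (k : ℤ) :
    Function.Bijective (synth F k) := by
  constructor
  · rw [← LinearMap.ker_eq_bot, LinearMap.ker_eq_bot']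
    intro d hd
    funext y
    refine h.eq_zero_of_sum_eq_zero d (fun τ => ?_) y
    rw [← synth_apply, hd, zero_apply]
  · intro f
    obtain ⟨r, hr⟩ := h.exists_decomp f
    refine ⟨r, ?_⟩
    ext τ
    rw [synth_apply, hr τ]

lemma IsDualFrame.synthCusp_bijective (h : IsDualFrame F Ψ) (k : ℤ) :
    Function.Bijective (synthCusp Ψ k) := by
  constructor
  · rw [← LinearMap.ker_eq_bot, LinearMap.ker_eq_bot']
    intro d hd
    funext y
    refine h.eq_zero_of_sum_dual_eq_zero d (fun τ => ?_) y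
    rw [← synthCusp_apply, hd, zero_apply]
  · intro f
    obtain ⟨s, hs⟩ := h.exists_decomp_cusp f
    refine ⟨s, ?_⟩
    ext τ
    rw [synthCusp_apply, hs τ]

/-- `M_k(Γ₀(N)) ≃ ∏ₓ M_{k - aₓ}(SL₂(ℤ))`. -/
def IsDualFrame.decompEquiv (h : IsDualFrame F Ψ) (k : ℤ) :
    (∀ x, ModularForm 𝒮ℒ (k - a x)) ≃ₗ[ℂ] ModularForm (Γ0 N) k :=
  LinearEquiv.ofBijective (synth F k) (h.synth_bijective k)

/-- `S_k(Γ₀(N)) ≃ ∏ₓ M_{k + aₓ - 12}(SL₂(ℤ))`. -/
def IsDualFrame.decompCuspEquiv (h : IsDualFrame F Ψ) (k : ℤ) :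
    (∀ x, ModularForm 𝒮ℒ (k + a x - 12)) ≃ₗ[ℂ] CuspForm (Γ0 N) k :=
  LinearEquiv.ofBijective (synthCusp Ψ k) (h.synthCusp_bijective k)

/-- `dim M_k(Γ₀(N)) = ∑ₓ dim M_{k - aₓ}(SL₂(ℤ))`. -/
theorem IsDualFrame.finrank_modularForm (h : IsDualFrame F Ψ) (k : ℤ) :
    Module.finrank ℂ (ModularForm (Γ0 N) k) =
      ∑ x, Module.finrank ℂ (ModularForm 𝒮ℒ (k - a x)) := by
  rw [← (h.decompEquiv k).finrank_eq, Module.finrank_pi_fintype]

/-- `dim S_k(Γ₀(N)) = ∑ₓ dim M_{k + aₓ - 12}(SL₂(ℤ))`. -/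
theorem IsDualFrame.finrank_cuspForm (h : IsDualFrame F Ψ) (k : ℤ) :
    Module.finrank ℂ (CuspForm (Γ0 N) k) =
      ∑ x, Module.finrank ℂ (ModularForm 𝒮ℒ (k + a x - 12)) := by
  rw [← (h.decompCuspEquiv k).finrank_eq, Module.finrank_pi_fintype]

end LinearEquivs


section Corollaries
variable {F : ∀ x, ModularForm (Γ0 N) (a x)} {Ψ : ∀ x, CuspForm (Γ0 N) (12 - a x)}

omit [NeZero N] in
lemma cosetFun_zero_modularForm {k : ℤ} (c : X N) :
    cosetFun (0 : ModularForm (Γ0 N) k) c = 0 := by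
  induction c using QuotientGroup.induction_on with
  | H g => rw [cosetFun_mk, FunLike.coe_zero, SlashAction.zero_slash]

omit [NeZero N] in
lemma cosetFun_zero_cuspForm {k : ℤ} (c : X N) :
    cosetFun (0 : CuspForm (Γ0 N) k) c = 0 := by
  induction c using QuotientGroup.induction_on with
  | H g => rw [cosetFun_mk, FunLike.coe_zero, SlashAction.zero_slash]

lemma IsDualFrame.frame_ne_zero (h : IsDualFrame F Ψ) (x : X N) : F x ≠ 0 := by
  intro h0
  have := h UpperHalfPlane.I x x
  rw [if_pos rfl, h0] at this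
  simp only [cosetFun_zero_modularForm, Pi.zero_apply, mul_zero, Finset.sum_const_zero] at this
  exact discriminant_ne_zero _ this.symm

lemma IsDualFrame.dual_ne_zero (h : IsDualFrame F Ψ) (x : X N) : Ψ x ≠ 0 := by
  intro h0
  have := h UpperHalfPlane.I x x
  rw [if_pos rfl, h0] at this
  simp only [cosetFun_zero_cuspForm, Pi.zero_apply, zero_mul, Finset.sum_const_zero] at this
  exact discriminant_ne_zero _ this.symm

lemma IsDualFrame.weight_even (h : IsDualFrame F Ψ) (x : X N) : Even (a x) := by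
  by_contra hodd
  exact h.frame_ne_zero x (eq_zero_of_odd_weight (Int.not_even_iff_odd.mp hodd) (F x))

lemma IsDualFrame.weight_nonneg (h : IsDualFrame F Ψ) (x : X N) : 0 ≤ a x := by
  by_contra hneg
  exact h.frame_ne_zero x (eq_zero_of_neg_weight (not_le.mp hneg) (F x))

lemma IsDualFrame.weight_le (h : IsDualFrame F Ψ) (x : X N) : a x ≤ 10 := by
  have h12 : a x < 12 := by
    by_contra hge
    exact h.dual_ne_zero x (cusp_eq_zero_of_nonpos_weight (by omega) (Ψ x))
  obtain ⟨t, ht⟩ := h.weight_even x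
  omega

lemma finrank_levelOne_of_eq_zero {w : ℤ} (hw : w = 0) :
    Module.finrank ℂ (ModularForm 𝒮ℒ w) = 1 := by
  subst hw
  exact Module.finrank_eq_of_rank_eq (by simpa using ModularForm.levelOne_weight_zero_rank_one)

lemma finrank_levelOne_of_neg {w : ℤ} (hw : w < 0) :
    Module.finrank ℂ (ModularForm 𝒮ℒ w) = 0 :=
  Module.finrank_eq_of_rank_eq (by simpa using ModularForm.levelOne_neg_weight_rank_zero hw)

/-- `dim S₂(Γ₀(N))` is the number of frame elements of weight `10`. -/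
theorem IsDualFrame.finrank_cuspForm_two (h : IsDualFrame F Ψ) :
    Module.finrank ℂ (CuspForm (Γ0 N) 2) = Nat.card {x : X N // a x = 10} := by
  rw [h.finrank_cuspForm 2, Nat.card_eq_fintype_card, Fintype.card_subtype, Finset.card_filter]
  refine Finset.sum_congr rfl fun x _ => ?_
  have hle := h.weight_le x
  split_ifs with h10
  · exact finrank_levelOne_of_eq_zero (by omega)
  · exact finrank_levelOne_of_neg (by omega)

/-- `dim M₀(Γ₀(N))` is the number of frame elements of weight `0`. -/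
theorem IsDualFrame.finrank_modularForm_zero (h : IsDualFrame F Ψ) :
    Module.finrank ℂ (ModularForm (Γ0 N) 0) = Nat.card {x : X N // a x = 0} := by
  rw [h.finrank_modularForm 0, Nat.card_eq_fintype_card, Fintype.card_subtype, Finset.card_filter]
  refine Finset.sum_congr rfl fun x _ => ?_
  have hge := h.weight_nonneg x
  split_ifs with h0
  · exact finrank_levelOne_of_eq_zero (by omega)
  · exact finrank_levelOne_of_neg (by omega)

/-- Weight-zero forms on `Γ₀(N)` form a line. -/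
theorem finrank_modularForm_weight_zero :
    Module.finrank ℂ (ModularForm (Γ0 N) 0) = 1 := by
  refine finrank_eq_one (ModularForm.const 1) ?_ fun f => ?_
  · intro h0
    have := congrArg (fun g : ModularForm (Γ0 N) 0 => g UpperHalfPlane.I) h0
    simp at this
  · obtain ⟨c, hc⟩ := const_of_weight_zero f
    refine ⟨c, ?_⟩
    ext τ
    simp [hc τ]

/-- Exactly one frame element has weight `0`. -/
theorem IsDualFrame.card_weight_zero (h : IsDualFrame F Ψ) :
    Nat.card {x : X N // a x = 0} = 1 := by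
  rw [← h.finrank_modularForm_zero, finrank_modularForm_weight_zero]

end Corollaries

end Fermat.Agent.S20.H85
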